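-- S29/S35/S42 leaf EIGCHAR (helper5860): a normalised eigenform (in the Prelude's q-coefficient sense)
-- of level N ≥ 1 is a simultaneous eigenvector of the Hecke algebra `heckeAlgebra N 2 S`, its eigenvalue
-- system is a ring homomorphism into the algebraic integers, with value `qCoeff g ℓ` at `T_ℓ` and
-- `qCoeff g q` at `U_q`.  Built on landed S49 (q-coefficient formulas) and landed S22 (finiteness).
import Fermat.Agent.S49
import Fermat.Agent.S22

set_option autoImplicit false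

namespace Fermat.Agent.S29.EigChar5860

open CuspForm ModularFormClass CongruenceSubgroup

/-- Arithmetic core at a good prime: the Hecke recursion in closed form. -/
theorem coeff_good {c : ℕ → ℂ} (h0 : c 0 = 0) (h1 : c 1 = 1)
    (hmul : ∀ m n : ℕ, m.Coprime n → c (m * n) = c m * c n)
    {ℓ : ℕ} (hℓ : ℓ.Prime)
    (hpow : ∀ r : ℕ, c (ℓ ^ (r + 2)) = c ℓ * c (ℓ ^ (r + 1)) - ℓ * c (ℓ ^ r)) (n : ℕ) :
    c (n * ℓ) + (if ℓ ∣ n then (ℓ : ℂ) * c (n / ℓ) else 0) = c ℓ * c n := by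
  rcases Nat.eq_zero_or_pos n with rfl | hn
  · simp [h0]
  obtain ⟨r, m, hm, rfl⟩ := Nat.exists_eq_pow_mul_and_not_dvd hn.ne' ℓ hℓ.ne_one
  have hcop : ∀ s : ℕ, (ℓ ^ s).Coprime m := fun s =>
    Nat.Coprime.pow_left s ((Nat.Prime.coprime_iff_not_dvd hℓ).mpr hm)
  have e1 : ℓ ^ r * m * ℓ = ℓ ^ (r + 1) * m := by ring
  rw [e1, hmul _ _ (hcop (r + 1)), hmul _ _ (hcop r)]
  rcases r with _ | r
  · have hnd : ¬ ℓ ∣ ℓ ^ 0 * m := by simpa using hm
    rw [if_neg hnd]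
    simp [h1]
  · have hd : ℓ ∣ ℓ ^ (r + 1) * m := Dvd.dvd.mul_right (dvd_pow_self ℓ (Nat.succ_ne_zero r)) m
    have hdiv : ℓ ^ (r + 1) * m / ℓ = ℓ ^ r * m := by
      rw [pow_succ, mul_assoc, mul_comm ℓ m, ← mul_assoc, Nat.mul_div_cancel _ hℓ.pos]
    rw [if_pos hd, hdiv, hmul _ _ (hcop r), hpow r]
    ring

/-- Arithmetic core at a bad prime. -/
theorem coeff_bad {c : ℕ → ℂ} (h0 : c 0 = 0) (h1 : c 1 = 1)
    (hmul : ∀ m n : ℕ, m.Coprime n → c (m * n) = c m * c n)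
    {q : ℕ} (hq : q.Prime)
    (hpow : ∀ r : ℕ, c (q ^ (r + 2)) = c q * c (q ^ (r + 1))) (n : ℕ) :
    c (n * q) = c q * c n := by
  rcases Nat.eq_zero_or_pos n with rfl | hn
  · simp [h0]
  obtain ⟨r, m, hm, rfl⟩ := Nat.exists_eq_pow_mul_and_not_dvd hn.ne' q hq.ne_one
  have hcop : ∀ s : ℕ, (q ^ s).Coprime m := fun s =>
    Nat.Coprime.pow_left s ((Nat.Prime.coprime_iff_not_dvd hq).mpr hm)
  have e1 : q ^ r * m * q = q ^ (r + 1) * m := by ring
  rw [e1, hmul _ _ (hcop (r + 1)), hmul _ _ (hcop r)]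
  rcases r with _ | r
  · simp [h1]
  · rw [hpow r]; ring

variable {N : ℕ} [NeZero N]

theorem eq_of_qCoeff_eq {f g : CuspForm (Gamma0 N) 2} (h : ∀ n, qCoeff f n = qCoeff g n) : f = g := by
  rw [← sub_eq_zero]
  apply Fermat.Agent.S49.eq_zero_of_qCoeff
  intro n
  have := map_sub (Fermat.Agent.S49.qCoeffLin N 2 n) f g
  rw [Fermat.Agent.S49.qCoeffLin_apply, Fermat.Agent.S49.qCoeffLin_apply,
    Fermat.Agent.S49.qCoeffLin_apply] at this
  rw [this, h n, sub_self]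

omit [NeZero N] in
theorem qCoeff_smul (c : ℂ) (g : CuspForm (Gamma0 N) 2) (n : ℕ) :
    qCoeff (⇑(c • g : CuspForm (Gamma0 N) 2)) n = c * qCoeff (⇑g) n := by
  have := map_smul (Fermat.Agent.S49.qCoeffLin N 2 n) c g
  rw [Fermat.Agent.S49.qCoeffLin_apply, Fermat.Agent.S49.qCoeffLin_apply, smul_eq_mul] at this
  exact this

/-- EIG at good primes: a normalised eigenform is a `T_ℓ`-eigenvector with eigenvalue `a_ℓ`. -/
theorem heckeTLin_apply_eq_smul {g : CuspForm (Gamma0 N) 2} (hg : g.IsNormalizedEigenform)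
    {ℓ : ℕ} (hℓ : ℓ.Prime) (hℓN : ¬ ℓ ∣ N) :
    CuspForm.heckeTLin 2 hℓ hℓN g = qCoeff g ℓ • g := by
  apply eq_of_qCoeff_eq
  intro n
  rw [Fermat.Agent.S49.qCoeff_heckeTLin hℓ hℓN g n, qCoeff_smul]
  exact coeff_good (Fermat.Agent.S49.qCoeff_zero_idx g) hg.qCoeff_one hg.qCoeff_mul_of_coprime hℓ
    (fun r => hg.qCoeff_prime_pow_of_not_dvd ℓ r hℓ hℓN) n

/-- EIG at bad primes: a normalised eigenform is a `U_q`-eigenvector with eigenvalue `a_q`. -/
theorem heckeULin_apply_eq_smul {g : CuspForm (Gamma0 N) 2} (hg : g.IsNormalizedEigenform)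
    {q : ℕ} (hq : q.Prime) (hqN : q ∣ N) :
    CuspForm.heckeULin 2 hqN g = qCoeff g q • g := by
  apply eq_of_qCoeff_eq
  intro n
  rw [Fermat.Agent.S49.qCoeff_heckeULin hq hqN g n, qCoeff_smul]
  exact coeff_bad (Fermat.Agent.S49.qCoeff_zero_idx g) hg.qCoeff_one hg.qCoeff_mul_of_coprime hq
    (fun r => hg.qCoeff_prime_pow_of_dvd q r hq hqN) n

/-- Every element of the Hecke algebra acts on a normalised eigenform by a scalar. -/
theorem exists_eigenvalue {g : CuspForm (Gamma0 N) 2} (hg : g.IsNormalizedEigenform) (S : Set ℕ)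
    (t : Module.End ℂ (CuspForm (Gamma0 N) 2)) (ht : t ∈ CuspForm.heckeAlgebra N 2 S) :
    ∃ c : ℂ, t g = c • g := by
  induction ht using Algebra.adjoin_induction with
  | mem x hx =>
    rcases hx with ⟨ℓ, hℓ, hℓN, -, rfl⟩ | ⟨q, hqN, hq, -, rfl⟩
    · exact ⟨_, heckeTLin_apply_eq_smul hg hℓ hℓN⟩
    · exact ⟨_, heckeULin_apply_eq_smul hg hq hqN⟩
  | algebraMap r =>
    refine ⟨(r : ℂ), ?_⟩
    rw [Algebra.algebraMap_eq_smul_one, LinearMap.smul_apply, Module.End.one_apply]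
    exact (Int.cast_smul_eq_zsmul ℂ r g).symm
  | add x y _ _ hx hy =>
    obtain ⟨a, ha⟩ := hx
    obtain ⟨b, hb⟩ := hy
    exact ⟨a + b, by rw [LinearMap.add_apply, ha, hb, add_smul]⟩
  | mul x y _ _ hx hy =>
    obtain ⟨a, ha⟩ := hx
    obtain ⟨b, hb⟩ := hy
    exact ⟨a * b, by rw [Module.End.mul_apply, hb, map_smul, ha, smul_smul, mul_comm]⟩

/-- The eigenvalue of `t` on `g`, read off from the first `q`-coefficient. -/
noncomputable def eigval (g : CuspForm (Gamma0 N) 2) (S : Set ℕ)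
    (t : CuspForm.heckeAlgebra N 2 S) : ℂ :=
  qCoeff ((t : Module.End ℂ (CuspForm (Gamma0 N) 2)) g) 1

theorem apply_eq_eigval_smul {g : CuspForm (Gamma0 N) 2} (hg : g.IsNormalizedEigenform) (S : Set ℕ)
    (t : CuspForm.heckeAlgebra N 2 S) :
    (t : Module.End ℂ (CuspForm (Gamma0 N) 2)) g = eigval g S t • g := by
  obtain ⟨c, hc⟩ := exists_eigenvalue hg S t t.2
  have : eigval g S t = c := by
    rw [eigval, hc, qCoeff_smul, hg.qCoeff_one, mul_one]
  rw [this, hc]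

theorem eigval_unique {g : CuspForm (Gamma0 N) 2} (hg : g.IsNormalizedEigenform) (S : Set ℕ)
    (t : CuspForm.heckeAlgebra N 2 S) {c : ℂ}
    (hc : (t : Module.End ℂ (CuspForm (Gamma0 N) 2)) g = c • g) : eigval g S t = c := by
  rw [eigval, hc, qCoeff_smul, hg.qCoeff_one, mul_one]

/-- The eigenvalue system as a ring homomorphism to `ℂ`. -/
noncomputable def eigCharC {g : CuspForm (Gamma0 N) 2} (hg : g.IsNormalizedEigenform) (S : Set ℕ) :
    CuspForm.heckeAlgebra N 2 S →+* ℂ where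
  toFun := eigval g S
  map_one' := eigval_unique hg S 1 (by simp)
  map_mul' x y := eigval_unique hg S (x * y) (by
    rw [MulMemClass.coe_mul, Module.End.mul_apply, apply_eq_eigval_smul hg S y, map_smul,
      apply_eq_eigval_smul hg S x, smul_smul, mul_comm])
  map_zero' := eigval_unique hg S 0 (by simp)
  map_add' x y := eigval_unique hg S (x + y) (by
    rw [AddMemClass.coe_add, LinearMap.add_apply, apply_eq_eigval_smul hg S x,
      apply_eq_eigval_smul hg S y, add_smul])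

theorem eigCharC_isIntegral {g : CuspForm (Gamma0 N) 2} (hg : g.IsNormalizedEigenform) (S : Set ℕ)
    (t : CuspForm.heckeAlgebra N 2 S) : IsIntegral ℤ (eigCharC hg S t) := by
  have : Module.Finite ℤ (CuspForm.heckeAlgebra N 2 S) := Fermat.Agent.S22.result N 2 S
  exact map_isIntegral_int (eigCharC hg S) (Algebra.IsIntegral.isIntegral t)

/-- **EIGCHAR**: the eigenvalue system of a normalised eigenform as a ring homomorphism from the
Hecke algebra (away from any `S`) to the algebraic integers. -/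
theorem exists_eigenCharacter {g : CuspForm (Gamma0 N) 2} (hg : g.IsNormalizedEigenform)
    (S : Set ℕ) :
    ∃ lam : CuspForm.heckeAlgebra N 2 S →+* integralClosure ℤ ℂ,
      (∀ t : CuspForm.heckeAlgebra N 2 S,
        (t : Module.End ℂ (CuspForm (Gamma0 N) 2)) g = ((lam t : integralClosure ℤ ℂ) : ℂ) • g) ∧
      (∀ (ℓ : ℕ) (hℓ : ℓ.Prime) (hℓN : ¬ ℓ ∣ N) (hℓS : ℓ ∉ S),
        ((lam (CuspForm.heckeAlgebra.T hℓ hℓN hℓS) : integralClosure ℤ ℂ) : ℂ) = qCoeff g ℓ) ∧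
      (∀ (q : ℕ) (hq : q.Prime) (hqN : q ∣ N) (hqS : q ∉ S),
        ((lam (CuspForm.heckeAlgebra.U hq hqN hqS) : integralClosure ℤ ℂ) : ℂ) = qCoeff g q) := by
  refine ⟨(eigCharC hg S).codRestrict (integralClosure ℤ ℂ) (eigCharC_isIntegral hg S), ?_, ?_, ?_⟩
  · intro t
    exact apply_eq_eigval_smul hg S t
  · intro ℓ hℓ hℓN hℓS
    exact eigval_unique hg S _ (heckeTLin_apply_eq_smul hg hℓ hℓN)
  · intro q hq hqN hqS
    exact eigval_unique hg S _ (heckeULin_apply_eq_smul hg hq hqN)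

/-- Integrality of all prime-index coefficients of a normalised eigenform of level `N ≥ 1`. -/
theorem exists_integral_qCoeff_prime {g : CuspForm (Gamma0 N) 2} (hg : g.IsNormalizedEigenform)
    {ℓ : ℕ} (hℓ : ℓ.Prime) : ∃ a : integralClosure ℤ ℂ, (a : ℂ) = qCoeff g ℓ := by
  obtain ⟨lam, -, hT, hU⟩ := exists_eigenCharacter hg (∅ : Set ℕ)
  by_cases hℓN : ℓ ∣ N
  · exact ⟨_, hU ℓ hℓ hℓN (Set.notMem_empty ℓ)⟩
  · exact ⟨_, hT ℓ hℓ hℓN (Set.notMem_empty ℓ)⟩

end Fermat.Agent.S29.EigChar5860
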